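import Fermat.Agent.S31.Reduction
import Fermat.Agent.Lib.FrobDensity

/-!
# S31: density of powers of Frobenius lifts (from the Frobenius density theorem)
-/

set_option autoImplicit false

namespace Fermat.Agent.S31

theorem frobPowDense : FrobPowDense := by
  intro L hL S g
  obtain ⟨ℓ, A, φ, _, b, hℓ, hℓS, hA, hφ, _, h2⟩ :=
    Fermat.Agent.Lib.FrobDensity.exists_frobenius_generator L g S
  exact ⟨ℓ, A, φ, b, hℓ, hℓS, hA, hφ, h2⟩

end Fermat.Agent.S31
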