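import Fermat.Agent.S31.Reduction
import Fermat.Agent.GAL.UTower
import Fermat.Agent.S30.Cyclo

/-!
# S31: the Hecke trace congruence from the universal tower
-/

set_option autoImplicit false

namespace Fermat.Agent.S31

open Fermat.Agent.S30 Fermat.Agent.GAL CuspForm

section Ring

/-- The Lucas sequence evaluated at `x + ℓ x⁻¹`. -/
theorem map_lucas_eq {R E : Type*} [CommRing R] [Ring E] (φ : R →+* E) (t : R) (ℓ : ℕ) (x y : E)
    (hxy : x * y = 1) (hyx : y * x = 1) (ht : φ t = x + ℓ • y) (w : ℕ) :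
    φ (lucas t (ℓ : R) w) = x ^ w + (ℓ ^ w) • y ^ w := by
  induction w using Nat.strong_induction_on with
  | _ w ih =>
    match w with
    | 0 => rw [lucas_zero, map_ofNat]; simp; norm_num
    | 1 => rw [lucas_one, ht]; simp
    | (w + 2) =>
      have h1 : x * y ^ (w + 1) = y ^ w := by rw [pow_succ', ← mul_assoc, hxy, one_mul]
      have h2 : y * x ^ (w + 1) = x ^ w := by rw [pow_succ', ← mul_assoc, hyx, one_mul]
      rw [lucas_succ_succ, map_sub, map_mul, map_mul, ih (w + 1) (by omega), ih w (by omega), ht,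
        map_natCast]
      rw [add_mul, mul_add, mul_add, mul_smul_comm, smul_mul_assoc, smul_mul_assoc, mul_smul_comm,
        h1, h2, ← pow_succ' x, ← pow_succ' y, smul_smul, ← nsmul_eq_mul, smul_add, smul_smul]
      have e1 : ℓ * ℓ ^ (w + 1) = ℓ ^ (w + 1 + 1) := by ring
      have e2 : ℓ * ℓ ^ w = ℓ ^ (w + 1) := by ring
      rw [e1, e2]
      abel

end Ring

section ArtinRees

/-- Artin-Rees for a commutative ring acting faithfully on a lattice. -/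
theorem exists_shift {R : Type*} [CommRing R] {Lam : Type*} [AddCommGroup Lam]
    [Module.Free ℤ Lam] [Module.Finite ℤ Lam] (ι : R →+* Module.End ℤ Lam)
    (hι : Function.Injective ι) (p : ℕ) :
    ∃ c : ℕ, ∀ (n : ℕ) (t : R) (E : Module.End ℤ Lam), ι t = (p ^ (n + c) : ℕ) • E →
      ∃ b : R, t = (p : R) ^ n * b := by
  let N' : Submodule ℤ (Module.End ℤ Lam) := LinearMap.range ι.toIntAlgHom.toLinearMap
  obtain ⟨c, hc⟩ := Ideal.exists_pow_inf_eq_pow_smul (Ideal.span {(p : ℤ)}) N'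
  refine ⟨c, fun n t E hE => ?_⟩
  have h1 : ι t ∈ (Ideal.span {(p : ℤ)}) ^ (n + c) • (⊤ : Submodule ℤ (Module.End ℤ Lam)) ⊓ N' := by
    refine ⟨?_, ⟨t, rfl⟩⟩
    rw [hE, Ideal.span_singleton_pow, Submodule.ideal_span_singleton_smul]
    refine ⟨E, trivial, ?_⟩
    simp
  rw [hc (n + c) (by omega), Nat.add_sub_cancel] at h1
  have h2 : ι t ∈ (Ideal.span {(p : ℤ)}) ^ n • N' :=
    Submodule.smul_mono le_rfl inf_le_right h1
  rw [Ideal.span_singleton_pow, Submodule.ideal_span_singleton_smul] at h2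
  obtain ⟨z, ⟨b, rfl⟩, hz⟩ := h2
  refine ⟨b, hι ?_⟩
  rw [← hz, map_mul, map_pow, map_natCast]
  ext v
  simp

end ArtinRees

theorem nsmul_eq_of_modEq {W : Type*} [AddCommGroup W] {M a b : ℕ} (h : a ≡ b [MOD M]) (z : W)
    (hz : M • z = 0) : a • z = b • z := by
  obtain ⟨d, hd⟩ := (Nat.modEq_iff_dvd.mp h)
  have h1 : ((b : ℤ) - a) • z = 0 := by
    rw [hd, mul_smul, smul_comm, natCast_zsmul, hz, smul_zero]
  rw [sub_smul, natCast_zsmul, natCast_zsmul, sub_eq_zero] at h1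
  exact h1.symm

variable {N p : ℕ} [NeZero N] {S : Finset ℕ}

/-- The operator `ρ σ ^ w + ℓ ^ w ρ σ ^ (-w)` is a Lucas polynomial in `X_ℓ`. -/
theorem lucas_smul (U : UTower N p S) (k : ℕ) {ℓ : ℕ} (hℓ : ℓ.Prime) (hℓS : ℓ ∉ S) {σ : GQ}
    (hσ : IsFrob σ ℓ) (w : ℕ) (v : U.W k) :
    (lucas (MvPolynomial.X ℓ : HA) (ℓ : HA) w) • v =
      U.ρ k (σ ^ w) v + (ℓ ^ w) • U.ρ k (σ ^ w)⁻¹ v := by
  have hxy : U.ρ k σ * U.ρ k σ⁻¹ = 1 := by rw [← map_mul, mul_inv_cancel, map_one]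
  have hyx : U.ρ k σ⁻¹ * U.ρ k σ = 1 := by rw [← map_mul, inv_mul_cancel, map_one]
  have ht : algebraMap HA (Module.End HA (U.W k)) (MvPolynomial.X ℓ) =
      U.ρ k σ + ℓ • U.ρ k σ⁻¹ := by
    ext u
    have h := U.eichlerShimura k ℓ hℓ hℓS σ hσ (U.ρ k σ⁻¹ u)
    have h1 : U.ρ k σ (U.ρ k σ⁻¹ u) = u := by
      rw [← Module.End.mul_apply, hxy, Module.End.one_apply]
    rw [h1] at h
    rw [Module.algebraMap_end_apply, LinearMap.add_apply, LinearMap.smul_apply]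
    rw [sub_add_eq_add_sub, sub_eq_zero] at h
    exact h.symm
  have h := map_lucas_eq (algebraMap HA (Module.End HA (U.W k))) (MvPolynomial.X ℓ) ℓ _ _ hxy hyx
    ht w
  have h2 := congrArg (fun f => f v) h
  simp only [Module.algebraMap_end_apply, LinearMap.add_apply, LinearMap.smul_apply] at h2
  rw [h2, map_pow, ← inv_pow, map_pow]

/-- **The Hecke trace congruence from the universal tower.** -/
theorem heckeTraceCongruence_of_utower [Fact p.Prime] (hpS : p ∈ S)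
    (hNS : ∀ q : ℕ, q.Prime → q ∣ N → q ∈ S) (U : UTower N p S) :
    HeckeTraceCongruence p N S := by
  obtain ⟨c, hc⟩ := exists_shift U.ι U.ι_injective p
  intro n
  obtain ⟨L₁, hL₁fin, hL₁⟩ := U.finiteLevel (n + c)
  obtain ⟨L₂, hL₂fin, hL₂⟩ := exists_cycloField p (n + c)
  refine ⟨L₁ ⊔ L₂, IntermediateField.finiteDimensional_sup L₁ L₂, ?_⟩
  intro q hq hqS P hP τ hτ ℓ ℓ' hℓ hℓN hℓS hℓ' hℓN' hℓS' A A' σ σ' w w' hA hσ hA' hσ' hagree
  have hle₁ : L₁ ≤ L₁ ⊔ L₂ := le_sup_left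
  have hle₂ : L₂ ≤ L₁ ⊔ L₂ := le_sup_right
  have hS1 : ℓ ∉ S := fun h => hℓS (Finset.mem_coe.mpr h)
  have hS1' : ℓ' ∉ S := fun h => hℓS' (Finset.mem_coe.mpr h)
  have hℓp : ℓ ≠ p := fun h => hS1 (h ▸ hpS)
  have hℓp' : ℓ' ≠ p := fun h => hS1' (h ▸ hpS)
  have hqp : q ≠ p := fun h => hqS (h ▸ hpS)
  have hqN : ¬ q ∣ N := fun h => hqS (hNS q hq h)
  -- the two Galois elements act in the same way
  have hρτ : U.ρ (n + c) τ = 1 := U.unramified (n + c) q hq hqN hqp τ ⟨P, hP, hτ⟩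
  have hρ : U.ρ (n + c) (σ ^ w) = U.ρ (n + c) (σ' ^ w') := by
    have h1 : U.ρ (n + c) ((τ * σ' ^ w')⁻¹ * σ ^ w) = 1 := by
      apply hL₁
      intro x hx
      rw [AlgEquiv.mul_apply, hagree x (hle₁ hx)]
      exact AlgEquiv.symm_apply_apply (τ * σ' ^ w') x
    have h2 : U.ρ (n + c) (σ ^ w) = U.ρ (n + c) (τ * σ' ^ w') *
        U.ρ (n + c) ((τ * σ' ^ w')⁻¹ * σ ^ w) := by
      rw [← map_mul, mul_inv_cancel_left]
    rw [h2, h1, mul_one, map_mul, hρτ, one_mul]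
  have hρinv : U.ρ (n + c) (σ ^ w)⁻¹ = U.ρ (n + c) (σ' ^ w')⁻¹ := by
    have h1 : U.ρ (n + c) (σ ^ w)⁻¹ * U.ρ (n + c) (σ' ^ w') = 1 := by
      rw [← hρ, ← map_mul, inv_mul_cancel, map_one]
    calc U.ρ (n + c) (σ ^ w)⁻¹
        = U.ρ (n + c) (σ ^ w)⁻¹ * (U.ρ (n + c) (σ' ^ w') * U.ρ (n + c) (σ' ^ w')⁻¹) := by
          rw [← map_mul (U.ρ (n + c)) (σ' ^ w'), mul_inv_cancel, map_one, mul_one]
      _ = U.ρ (n + c) (σ' ^ w')⁻¹ := by rw [← mul_assoc, h1, one_mul]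
  -- the cyclotomic exponents agree
  have hcyc : ℓ ^ w ≡ ℓ' ^ w' [MOD p ^ (n + c)] := by
    have h1 : IsCyc p (n + c) (σ ^ w) (ℓ ^ w) := (isCyc_frob hℓ hℓp ⟨A, hA, hσ⟩).pow w
    have h2 : IsCyc p (n + c) (τ * σ' ^ w') (1 * ℓ' ^ w') :=
      (isCyc_inertia hq hqp ⟨P, hP, hτ⟩).mul ((isCyc_frob hℓ' hℓp' ⟨A', hA', hσ'⟩).pow w')
    have h3 : IsCyc p (n + c) (σ ^ w) (1 * ℓ' ^ w') :=
      h2.congr (fun μ hμ => hagree μ (hle₂ (hL₂ μ hμ)))
    simpa using h1.modEq h3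
  -- the difference of the Lucas polynomials kills the layer
  have hkill : ∀ v : U.W (n + c),
      (lucas (MvPolynomial.X ℓ : HA) (ℓ : HA) w - lucas (MvPolynomial.X ℓ' : HA) (ℓ' : HA) w') • v
        = 0 := by
    intro v
    rw [sub_smul, lucas_smul U (n + c) hℓ hS1 ⟨A, hA, hσ⟩ w v,
      lucas_smul U (n + c) hℓ' hS1' ⟨A', hA', hσ'⟩ w' v, hρ, hρinv,
      nsmul_eq_of_modEq hcyc _ (U.pow_smul (n + c) _), sub_self]
  obtain ⟨E, hE⟩ := U.faithful (n + c) _ hkill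
  obtain ⟨b, hb⟩ := hc n _ E hE
  refine ⟨b, ?_⟩
  rw [← hb, map_sub]
  have e1 := map_lucas (MvPolynomial.aeval (heckeFun N S) : HA →ₐ[ℤ] _).toRingHom
    (MvPolynomial.X ℓ) (ℓ : HA) w
  have e2 := map_lucas (MvPolynomial.aeval (heckeFun N S) : HA →ₐ[ℤ] _).toRingHom
    (MvPolynomial.X ℓ') (ℓ' : HA) w'
  simp only [AlgHom.toRingHom_eq_coe, RingHom.coe_coe, MvPolynomial.aeval_X, map_natCast] at e1 e2
  rw [e1, e2, heckeFun_eq hℓ hℓN hℓS, heckeFun_eq hℓ' hℓN' hℓS']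

end Fermat.Agent.S31
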