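import Fermat.Agent.S31.Dense
import Fermat.Agent.S31.FromTower
import Fermat.Agent.GAL.TowerOfKummer

/-!
# S31 from the Kummer levels of the cluster GAL
-/

set_option autoImplicit false

namespace Fermat.Agent.S31

open Fermat.Agent.GAL

variable {p : ℕ} {N : ℕ} [NeZero N] {S : Finset ℕ}
  {𝒪 : Type} [CommRing 𝒪] [IsDomain 𝒪] [IsDiscreteValuationRing 𝒪]
  [IsAdicComplete (IsLocalRing.maximalIdeal 𝒪) 𝒪]
  {θ : CuspForm.heckeAlgebra N 2 (↑S : Set ℕ) →+* IsLocalRing.ResidueField 𝒪}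
  {T : Type} [CommRing T] [IsLocalRing T] [IsNoetherianRing T]
  [IsAdicComplete (IsLocalRing.maximalIdeal T) T] [Algebra 𝒪 T] [IsLocalHom (algebraMap 𝒪 T)]
  [Module.Finite 𝒪 T] [Module.Free 𝒪 T]

/-- S31 from Kummer levels at all powers of `p`. -/
theorem result_of_kummerLevels (hK : ∀ k : ℕ, Nonempty (KummerLevel N (p ^ k))) (hp : p.Prime)
    (hp𝒪 : (p : 𝒪) ∈ IsLocalRing.maximalIdeal 𝒪) (hpS : p ∈ S)
    (hNS : ∀ q : ℕ, q.Prime → q ∣ N → q ∈ S)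
    (H : CuspForm.HeckeGaloisRepDatum N (↑S : Set ℕ) 𝒪 θ T)
    (q : ℕ) (hq : q.Prime) (hqS : q ∉ S) :
    H.ρ.IsUnramifiedAt q :=
  haveI : Fact p.Prime := ⟨hp⟩
  isUnramifiedAt_of_inputs frobPowDense
    (heckeTraceCongruence_of_utower hpS hNS (utowerOfKummer hp S hNS hpS fun k => (hK k).some))
    hp𝒪 hNS H q hq hqS

end Fermat.Agent.S31
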