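import Fermat.Agent.S31.TraceKernel

/-!
# S31: reduction to two inputs

`S31` follows from
* `FrobPowDense` : powers of Frobenius lifts at primes outside a finite set are dense in `G_ℚ`
  (a consequence of the weak form of the Chebotarev density theorem);
* `HeckeTraceCongruence p N S` : the "universal trace" with values in the Hecke algebra is
  insensitive to inertia at primes outside `S`, modulo every power of `p`.
-/

set_option autoImplicit false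

namespace Fermat.Agent.S31

open Polynomial IsLocalRing CuspForm

/-- Powers of Frobenius lifts at primes outside a finite set are dense in `G_ℚ`. -/
def FrobPowDense : Prop :=
  ∀ (L : IntermediateField ℚ (AlgebraicClosure ℚ)), FiniteDimensional ℚ L →
    ∀ (S : Finset ℕ) (g : Gal),
      ∃ (ℓ : ℕ) (A : ValuationSubring (AlgebraicClosure ℚ)) (σ : Gal) (w : ℕ),
        ℓ.Prime ∧ ℓ ∉ S ∧ A.LiesOverPrime ℓ ∧ A.IsFrobeniusAt σ ℓ ∧ ∀ x ∈ L, (σ ^ w) x = g x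

/-- The universal Hecke-valued trace is insensitive to inertia outside `S`, modulo `p ^ n`. -/
def HeckeTraceCongruence (p N : ℕ) [NeZero N] (S : Finset ℕ) : Prop :=
  ∀ n : ℕ, ∃ L : IntermediateField ℚ (AlgebraicClosure ℚ), FiniteDimensional ℚ L ∧
    ∀ (q : ℕ), q.Prime → q ∉ S →
    ∀ (P : ValuationSubring (AlgebraicClosure ℚ)), P.LiesOverPrime q →
    ∀ τ ∈ P.inertiaSubgroupIn ℚ,
    ∀ (ℓ ℓ' : ℕ) (hℓ : ℓ.Prime) (hℓN : ¬ ℓ ∣ N) (hℓS : ℓ ∉ (↑S : Set ℕ))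
      (hℓ' : ℓ'.Prime) (hℓN' : ¬ ℓ' ∣ N) (hℓS' : ℓ' ∉ (↑S : Set ℕ))
      (A A' : ValuationSubring (AlgebraicClosure ℚ)) (σ σ' : Gal) (w w' : ℕ),
      A.LiesOverPrime ℓ → A.IsFrobeniusAt σ ℓ → A'.LiesOverPrime ℓ' → A'.IsFrobeniusAt σ' ℓ' →
      (∀ x ∈ L, (σ ^ w) x = (τ * σ' ^ w') x) →
      ∃ b : heckeAlgebra N 2 (↑S : Set ℕ),
        lucas (heckeAlgebra.T hℓ hℓN hℓS : heckeAlgebra N 2 (↑S : Set ℕ)) (ℓ : _) w -
          lucas (heckeAlgebra.T hℓ' hℓN' hℓS' : heckeAlgebra N 2 (↑S : Set ℕ)) (ℓ' : _) w' =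
          (p : heckeAlgebra N 2 (↑S : Set ℕ)) ^ n * b

section

variable {T : Type} [CommRing T] [IsLocalRing T]

/-- Two Galois elements agreeing on the field of level `n` have congruent traces. -/
theorem trace_sub_trace_mem (ρ : GaloisRepAdic T) (n : ℕ)
    (L : IntermediateField ℚ (AlgebraicClosure ℚ))
    (hL : ∀ σ : Gal, (∀ x ∈ L, σ x = x) →
      ∀ v : ρ.V, ρ.ρ σ v - v ∈ (maximalIdeal T ^ n) • (⊤ : Submodule T ρ.V))
    (g g' : Gal) (hgg' : ∀ x ∈ L, g x = g' x) :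
    LinearMap.trace T ρ.V (ρ.ρ g) - LinearMap.trace T ρ.V (ρ.ρ g') ∈ maximalIdeal T ^ n := by
  rw [← map_sub]
  apply trace_mem_of_forall_mem
  intro v
  have hδ : ∀ x ∈ L, (g'⁻¹ * g) x = x := by
    intro x hx
    rw [AlgEquiv.mul_apply, hgg' x hx]
    exact AlgEquiv.symm_apply_apply g' x
  have h1 := hL _ hδ v
  have h2 : (ρ.ρ g - ρ.ρ g') v = ρ.ρ g' (ρ.ρ (g'⁻¹ * g) v - v) := by
    rw [map_sub, ← Module.End.mul_apply, ← map_mul, mul_inv_cancel_left, LinearMap.sub_apply]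
  rw [h2]
  have h3 : Submodule.map (ρ.ρ g') ((maximalIdeal T ^ n) • (⊤ : Submodule T ρ.V)) ≤
      (maximalIdeal T ^ n) • (⊤ : Submodule T ρ.V) := by
    rw [Submodule.map_smul'']
    exact Submodule.smul_mono le_rfl le_top
  exact h3 (Submodule.mem_map_of_mem h1)

end

variable {p : ℕ} {N : ℕ} [NeZero N] {S : Finset ℕ}
  {𝒪 : Type} [CommRing 𝒪] [IsDomain 𝒪] [IsDiscreteValuationRing 𝒪]
  [IsAdicComplete (IsLocalRing.maximalIdeal 𝒪) 𝒪]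
  {θ : CuspForm.heckeAlgebra N 2 (↑S : Set ℕ) →+* IsLocalRing.ResidueField 𝒪}
  {T : Type} [CommRing T] [IsLocalRing T] [IsNoetherianRing T]
  [IsAdicComplete (IsLocalRing.maximalIdeal T) T] [Algebra 𝒪 T] [IsLocalHom (algebraMap 𝒪 T)]
  [Module.Finite 𝒪 T] [Module.Free 𝒪 T]

/-- Trace of a power of a Frobenius lift in a Hecke-Galois datum. -/
theorem trace_frob_pow (H : CuspForm.HeckeGaloisRepDatum N (↑S : Set ℕ) 𝒪 θ T)
    {ℓ : ℕ} (hℓ : ℓ.Prime) (hℓN : ¬ ℓ ∣ N) (hℓS : ℓ ∉ (↑S : Set ℕ))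
    (A : ValuationSubring (AlgebraicClosure ℚ)) (hA : A.LiesOverPrime ℓ) (σ : Gal)
    (hσ : A.IsFrobeniusAt σ ℓ) (w : ℕ) :
    LinearMap.trace T H.ρ.V (H.ρ.ρ (σ ^ w)) =
      H.π (lucas (heckeAlgebra.T hℓ hℓN hℓS : heckeAlgebra N 2 (↑S : Set ℕ)) (ℓ : _) w) := by
  rw [map_pow, trace_pow_of_charpoly H.ρ.finrank_eq _ _ _ (H.charpoly_frob ℓ hℓ hℓN hℓS A hA σ hσ),
    map_lucas, map_natCast]

/-- **S31 from its two inputs.** -/
theorem isUnramifiedAt_of_inputs (hdense : FrobPowDense) (hcong : HeckeTraceCongruence p N S)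
    (hp𝒪 : (p : 𝒪) ∈ IsLocalRing.maximalIdeal 𝒪)
    (hNS : ∀ q : ℕ, q.Prime → q ∣ N → q ∈ S)
    (H : CuspForm.HeckeGaloisRepDatum N (↑S : Set ℕ) 𝒪 θ T)
    (q : ℕ) (hq : q.Prime) (hqS : q ∉ S) :
    H.ρ.IsUnramifiedAt q := by
  intro P hP τ hτ
  have hpT : (p : T) ∈ maximalIdeal T := by
    have h1 : (p : T) = algebraMap 𝒪 T (p : 𝒪) := by simp
    rw [h1]
    exact map_nonunit (algebraMap 𝒪 T) _ hp𝒪
  rw [← sub_eq_zero]
  apply eq_zero_of_trace_mul_eq_zero H.ρ H.residual_absIrr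
  intro h
  rw [sub_mul, one_mul, ← map_mul, map_sub]
  -- it suffices to prove the congruence modulo every power of the maximal ideal
  have hHaus : IsHausdorff (maximalIdeal T) T := inferInstance
  apply hHaus.haus
  intro n
  rw [SModEq.zero, smul_eq_mul, Ideal.mul_top]
  obtain ⟨L₁, hL₁fin, hL₁⟩ := H.ρ.isAdicContinuous n
  obtain ⟨L₂, hL₂fin, hL₂⟩ := hcong n
  have hLfin : FiniteDimensional ℚ (L₁ ⊔ L₂ : IntermediateField ℚ (AlgebraicClosure ℚ)) :=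
    IntermediateField.finiteDimensional_sup L₁ L₂
  obtain ⟨ℓ', A', σ', w', hℓ', hℓS', hA', hσ', hw'⟩ := hdense (L₁ ⊔ L₂) hLfin S h
  obtain ⟨ℓ, A, σ, w, hℓ, hℓS, hA, hσ, hw⟩ := hdense (L₁ ⊔ L₂) hLfin S (τ * h)
  have hℓN : ¬ ℓ ∣ N := fun hd => hℓS (hNS ℓ hℓ hd)
  have hℓN' : ¬ ℓ' ∣ N := fun hd => hℓS' (hNS ℓ' hℓ' hd)
  have hℓS1 : ℓ ∉ (↑S : Set ℕ) := by simpa using hℓS
  have hℓS1' : ℓ' ∉ (↑S : Set ℕ) := by simpa using hℓS'
  have hle₁ : L₁ ≤ L₁ ⊔ L₂ := le_sup_left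
  have hle₂ : L₂ ≤ L₁ ⊔ L₂ := le_sup_right
  obtain ⟨b, hb⟩ := hL₂ q hq hqS P hP τ hτ ℓ ℓ' hℓ hℓN hℓS1 hℓ' hℓN' hℓS1' A A' σ σ' w w'
    hA hσ hA' hσ' (by
      intro x hx
      rw [hw x (hle₂ hx), AlgEquiv.mul_apply, AlgEquiv.mul_apply, hw' x (hle₂ hx)])
  have h1 := trace_sub_trace_mem H.ρ n L₁ hL₁ (τ * h) (σ ^ w) (fun x hx => (hw x (hle₁ hx)).symm)
  have h2 := trace_sub_trace_mem H.ρ n L₁ hL₁ (σ' ^ w') h (fun x hx => hw' x (hle₁ hx))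
  rw [trace_frob_pow H hℓ hℓN hℓS1 A hA σ hσ w] at h1
  rw [trace_frob_pow H hℓ' hℓN' hℓS1' A' hA' σ' hσ' w'] at h2
  have h3 : H.π (lucas (heckeAlgebra.T hℓ hℓN hℓS1 : heckeAlgebra N 2 (↑S : Set ℕ)) (ℓ : _) w) -
      H.π (lucas (heckeAlgebra.T hℓ' hℓN' hℓS1' : heckeAlgebra N 2 (↑S : Set ℕ)) (ℓ' : _) w') ∈
      maximalIdeal T ^ n := by
    rw [← map_sub, hb, map_mul, map_pow, map_natCast]
    exact Ideal.mul_mem_right _ _ (Ideal.pow_mem_pow hpT n)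
  have := Ideal.add_mem _ (Ideal.add_mem _ h1 h3) h2
  convert this using 1
  abel

end Fermat.Agent.S31
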