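import Mathlib
import Fermat.Prelude.Def_CuspForm_HeckeGaloisRepDatum
import Fermat.Agent.S53.Burnside

/-!
# S31: linear algebra over the coefficient ring

* `lucas t d w` : the sequence `2, t, t^2 - 2 d, ...` (trace of the `w`-th power of a
  two by two matrix with trace `t` and determinant `d`);
* `trace_pow_of_charpoly` : trace of a power from the characteristic polynomial;
* `trace_mem_of_range_le` : an endomorphism with image in `I • ⊤` has trace in `I`;
* `eq_zero_of_trace_mul_eq_zero` : if the residual representation is absolutely irreducible,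
  an endomorphism `x` with `tr (x * ρ h) = 0` for all `h` vanishes.
-/

set_option autoImplicit false

namespace Fermat.Agent.S31

open Polynomial IsLocalRing

/-- The absolute Galois group of `ℚ`. -/
abbrev Gal : Type := AlgebraicClosure ℚ ≃ₐ[ℚ] AlgebraicClosure ℚ

/-- The Lucas sequence `V_w(t,d)`. -/
def lucas {R : Type*} [CommRing R] (t d : R) : ℕ → R
  | 0 => 2
  | 1 => t
  | (w + 2) => t * lucas t d (w + 1) - d * lucas t d w

theorem lucas_zero {R : Type*} [CommRing R] (t d : R) : lucas t d 0 = 2 := rfl

theorem lucas_one {R : Type*} [CommRing R] (t d : R) : lucas t d 1 = t := rfl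

theorem lucas_succ_succ {R : Type*} [CommRing R] (t d : R) (w : ℕ) :
    lucas t d (w + 2) = t * lucas t d (w + 1) - d * lucas t d w := rfl

theorem map_lucas {R R' : Type*} [CommRing R] [CommRing R'] (φ : R →+* R') (t d : R) (w : ℕ) :
    φ (lucas t d w) = lucas (φ t) (φ d) w := by
  induction w using Nat.strong_induction_on with
  | _ w ih =>
    match w with
    | 0 => rw [lucas_zero, lucas_zero, map_ofNat]
    | 1 => simp [lucas_one]
    | (w + 2) =>
      rw [lucas_succ_succ, lucas_succ_succ, map_sub, map_mul, map_mul, ih (w + 1) (by omega),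
        ih w (by omega)]

section Free

variable {A : Type*} [CommRing A] {V : Type*} [AddCommGroup V] [Module A V]
  [Module.Free A V] [Module.Finite A V]

/-- Trace of a power of an endomorphism of a free module of rank two. -/
theorem trace_pow_of_charpoly [Nontrivial A] (hV : Module.finrank A V = 2) (f : Module.End A V)
    (t d : A) (hf : LinearMap.charpoly f = X ^ 2 - C t * X + C d) (w : ℕ) :
    LinearMap.trace A V (f ^ w) = lucas t d w := by
  have hCH : f ^ 2 = t • f - d • (1 : Module.End A V) := by
    have h := LinearMap.aeval_self_charpoly f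
    rw [hf] at h
    simp only [map_add, map_sub, map_mul, map_pow, aeval_X, aeval_C,
      Module.algebraMap_end_eq_smul_id] at h
    have h2 : f ^ 2 = (t • LinearMap.id) * f - d • LinearMap.id := by
      rw [eq_sub_iff_add_eq, ← sub_eq_zero]
      rw [← h]
      abel
    rw [h2]
    ext v
    simp
  have htr : LinearMap.trace A V f = t := by
    have h1 := LinearMap.charpoly_toMatrix f (Module.Free.chooseBasis A V)
    have hcard : Fintype.card (Module.Free.ChooseBasisIndex A V) = 2 := by
      rw [← Module.finrank_eq_card_chooseBasisIndex, hV]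
    have : Nonempty (Module.Free.ChooseBasisIndex A V) := by
      rw [← Fintype.card_pos_iff, hcard]; norm_num
    have h2 := Matrix.trace_eq_neg_charpoly_coeff
      (LinearMap.toMatrix (Module.Free.chooseBasis A V) (Module.Free.chooseBasis A V) f)
    rw [h1, hf, hcard] at h2
    rw [LinearMap.trace_eq_matrix_trace A (Module.Free.chooseBasis A V), h2]
    simp [coeff_C]
  induction w using Nat.strong_induction_on with
  | _ w ih =>
    match w with
    | 0 =>
      rw [pow_zero, LinearMap.trace_one, hV, lucas_zero]; norm_num
    | 1 => rw [pow_one, htr, lucas_one]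
    | (w + 2) =>
      have : f ^ (w + 2) = t • f ^ (w + 1) - d • f ^ w := by
        rw [pow_add, hCH, mul_sub, mul_smul_comm, mul_smul_comm, mul_one, ← pow_succ]
      rw [this, map_sub, map_smul, map_smul, ih (w + 1) (by omega), ih w (by omega),
        lucas_succ_succ, smul_eq_mul, smul_eq_mul]

/-- An endomorphism with image in `I • ⊤` has trace in `I`. -/
theorem trace_mem_of_forall_mem (I : Ideal A) (f : Module.End A V)
    (hf : ∀ v, f v ∈ I • (⊤ : Submodule A V)) : LinearMap.trace A V f ∈ I := by
  classical
  let b := Module.Free.chooseBasis A V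
  rw [LinearMap.trace_eq_matrix_trace A b, Matrix.trace]
  refine Ideal.sum_mem _ fun i _ => ?_
  rw [Matrix.diag_apply, LinearMap.toMatrix_apply]
  have key : ∀ x ∈ I • (⊤ : Submodule A V), ∀ j, b.repr x j ∈ I := by
    intro x hx j
    refine Submodule.smul_induction_on hx ?_ ?_
    · intro a ha v _
      rw [map_smul, Finsupp.smul_apply, smul_eq_mul]
      exact Ideal.mul_mem_right _ _ ha
    · intro x y hx hy
      rw [map_add, Finsupp.add_apply]
      exact Ideal.add_mem _ hx hy
  exact key _ (hf _) i

end Free

end Fermat.Agent.S31
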