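import Fermat.Agent.S31.Trace

/-!
# S31: the kernel of a residually absolutely irreducible representation is detected by traces
-/

set_option autoImplicit false

namespace Fermat.Agent.S31

open IsLocalRing

variable {T : Type} [CommRing T] [IsLocalRing T]

omit [IsLocalRing T] in
/-- A matrix with entries in `I` lies in `I • ⊤`. -/
theorem matrix_mem_smul_top (I : Ideal T) (Y : Matrix (Fin 2) (Fin 2) T)
    (hY : ∀ i j, Y i j ∈ I) : Y ∈ I • (⊤ : Submodule T (Matrix (Fin 2) (Fin 2) T)) := by
  rw [Matrix.matrix_eq_sum_single Y]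
  refine Submodule.sum_mem _ fun i _ => Submodule.sum_mem _ fun j _ => ?_
  have : Matrix.single i j (Y i j) = Y i j • Matrix.single i j (1 : T) := by
    simp [Matrix.smul_single]
  rw [this]
  exact Submodule.smul_mem_smul (hY i j) Submodule.mem_top

/-- Nakayama + Burnside: the matrices of a residually absolutely irreducible representation
span the matrix algebra. -/
theorem span_toMatrix_eq_top (ρ : GaloisRepAdic T) (habs : ρ.residual.IsAbsolutelyIrreducible)
    (B : Module.Basis (Fin 2) T ρ.V) :
    Submodule.span T (Set.range fun σ : Gal => LinearMap.toMatrix B B (ρ.ρ σ)) = ⊤ := by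
  rw [eq_top_iff]
  refine Submodule.le_of_le_smul_of_le_jacobson_bot (I := maximalIdeal T)
    (Module.Finite.fg_top) (IsLocalRing.maximalIdeal_le_jacobson _) ?_
  intro Y _
  let b : Module.Basis (Fin 2) (ResidueField T) ρ.residual.V :=
    Algebra.TensorProduct.basis (ResidueField T) B
  have hspan := Fermat.Agent.S53.span_toMatrix_eq_top ρ.residual habs b
  have hY : Y.map (residue T) ∈ Submodule.span (ResidueField T)
      (Set.range fun σ : Gal => LinearMap.toMatrix b b (ρ.residual.ρ σ)) := by
    rw [hspan]; trivial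
  obtain ⟨c, hc⟩ := Finsupp.mem_span_range_iff_exists_finsupp.1 hY
  have hmat : ∀ σ : Gal, LinearMap.toMatrix b b (ρ.residual.ρ σ) =
      (LinearMap.toMatrix B B (ρ.ρ σ)).map (residue T) := by
    intro σ
    exact LinearMap.toMatrix_baseChange (ResidueField T) (ρ.ρ σ) B B
  -- lift the coefficients
  let Y' : Matrix (Fin 2) (Fin 2) T :=
    c.sum fun σ a => Fermat.Agent.S53.resSection a • LinearMap.toMatrix B B (ρ.ρ σ)
  have hY' : Y' ∈ Submodule.span T (Set.range fun σ : Gal => LinearMap.toMatrix B B (ρ.ρ σ)) := by
    refine Submodule.sum_mem _ fun σ _ => Submodule.smul_mem _ _ (Submodule.subset_span ⟨σ, rfl⟩)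
  have hred : Y'.map (residue T) = Y.map (residue T) := by
    rw [← hc]
    simp only [Y']
    rw [← RingHom.mapMatrix_apply, map_finsuppSum]
    refine Finsupp.sum_congr fun σ _ => ?_
    rw [RingHom.mapMatrix_apply, hmat]
    ext i j
    simp [Fermat.Agent.S53.residue_resSection]
  have hdiff : Y - Y' ∈ maximalIdeal T • (⊤ : Submodule T (Matrix (Fin 2) (Fin 2) T)) := by
    apply matrix_mem_smul_top
    intro i j
    have h := congrFun (congrFun hred i) j
    simp only [Matrix.map_apply] at h
    rw [Matrix.sub_apply, ← residue_eq_zero_iff, map_sub, h, sub_self]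
  have : Y = Y' + (Y - Y') := by abel
  rw [this]
  exact Submodule.add_mem_sup hY' hdiff

/-- If the residual representation is absolutely irreducible, an endomorphism `x` with
`tr (x * ρ h) = 0` for all `h` vanishes. -/
theorem eq_zero_of_trace_mul_eq_zero (ρ : GaloisRepAdic T)
    (habs : ρ.residual.IsAbsolutelyIrreducible) (x : Module.End T ρ.V)
    (hx : ∀ h : Gal, LinearMap.trace T ρ.V (x * ρ.ρ h) = 0) : x = 0 := by
  let B : Module.Basis (Fin 2) T ρ.V := Module.finBasisOfFinrankEq _ _ ρ.finrank_eq
  have hspan := span_toMatrix_eq_top ρ habs B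
  have hM : LinearMap.toMatrix B B x = 0 := by
    rw [Matrix.ext_iff_trace_mul_right]
    intro Y
    rw [Matrix.zero_mul, Matrix.trace_zero]
    have hY : Y ∈ Submodule.span T (Set.range fun σ : Gal => LinearMap.toMatrix B B (ρ.ρ σ)) := by
      rw [hspan]; trivial
    induction hY using Submodule.span_induction with
    | mem Y hY =>
      obtain ⟨σ, rfl⟩ := hY
      have := hx σ
      rw [LinearMap.trace_eq_matrix_trace T B, LinearMap.toMatrix_mul] at this
      exact this
    | zero => simp
    | add Y Z _ _ hY hZ => rw [Matrix.mul_add, Matrix.trace_add, hY, hZ, add_zero]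
    | smul a Y _ hY => rw [Matrix.mul_smul, Matrix.trace_smul, hY, smul_zero]
  exact (LinearMap.toMatrix B B).injective (by rw [hM, map_zero])

end Fermat.Agent.S31
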